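/-
S18 moonshot (blueprint 14), package [RH] (helper92), part 1: GENERIC DEDEKIND TOWERS.

Riemann-Hurwitz in "degree of the different" form, any characteristic.  `K` a field, `A ⊆ B ⊆ C`
Dedekind domains, finite and torsion-free over each other, separable fraction fields, `B` and `C`
`K`-algebras all of whose residue fields are `K`.  `deg I := finrank K (R ⧸ I)`.

* `card_normalizedFactors_map`            : `deg (I C) = [C:B] · deg I`.
* `finrank_quotient_differentIdeal_tower` : (G1)  `deg 𝔇(C/A) = deg 𝔇(C/B) + [C:B] · deg 𝔇(B/A)`.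
* `count_sub_one_le_count_differentIdeal` : exponent of `𝔇` at `Q` is `≥ e(Q) - 1`.
* `card_mul_finrank_le_card_normalizedFactors_differentIdeal_add` : (G2)
    `#S · [C:B] ≤ deg 𝔇(C/B) + ∑_{p ∈ S} #{Q ∣ p}`.
* `sum_card_primesOverFinset`             : `∑_{P ∣ p} #{Q ∣ P} = #{Q ∣ p}`.
* `finrank_mul_card_add_le`               : (★) `[C:B] (#{P ∣ p} + deg 𝔇(B/A)) ≤ deg 𝔇(C/A) + #{Q ∣ p}`.
-/
import Mathlib
import Fermat.Agent.S20.QuotLen9
import Fermat.Agent.S20.RamCount

set_option autoImplicit false
set_option linter.unusedSectionVars false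

namespace Fermat.Agent.S18.RH92

open Module UniqueFactorizationMonoid Ideal

attribute [local instance] FractionRing.liftAlgebra FractionRing.isScalarTower_liftAlgebra
  Ideal.Quotient.field

section CardMap

variable (K : Type*) [Field K]
variable (B : Type*) (C : Type*) [CommRing B] [CommRing C] [Algebra B C]
  [Algebra K B] [Algebra K C] [IsScalarTower K B C]
  [IsDedekindDomain B] [IsDedekindDomain C] [Module.IsTorsionFree B C] [Module.Finite B C]

/-- `pC` has exactly `[C : B]` prime factors (with multiplicity) when all residue fields are `K`. -/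
theorem card_normalizedFactors_map_prime
    (hres : ∀ Q : Ideal C, Q.IsMaximal → Function.Surjective (algebraMap K (C ⧸ Q)))
    (P : Ideal B) [P.IsMaximal] (hP0 : P ≠ ⊥) :
    Multiset.card (normalizedFactors (P.map (algebraMap B C))) = finrank B C := by
  classical
  rw [← Fermat.Agent.S20.RamCount.sum_count_primesOver K B C hres P hP0]
  rw [IsDedekindDomain.primesOverFinset, factors_eq_normalizedFactors]
  exact (Multiset.toFinset_sum_count_eq _).symm

/-- `IC` has `[C : B] * (number of prime factors of I)` prime factors. -/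
theorem card_normalizedFactors_map
    (hres : ∀ Q : Ideal C, Q.IsMaximal → Function.Surjective (algebraMap K (C ⧸ Q)))
    (I : Ideal B) (hI : I ≠ ⊥) :
    Multiset.card (normalizedFactors (I.map (algebraMap B C))) =
      finrank B C * Multiset.card (normalizedFactors I) := by
  have hinj : Function.Injective (algebraMap B C) := FaithfulSMul.algebraMap_injective B C
  induction I using UniqueFactorizationMonoid.induction_on_prime with
  | h₁ => exact absurd rfl hI
  | h₂ x hx =>
    rw [Ideal.isUnit_iff] at hx
    subst hx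
    rw [Ideal.map_top, ← Ideal.one_eq_top, ← Ideal.one_eq_top, normalizedFactors_one,
      normalizedFactors_one]
    simp
  | h₃ J P hJ hP ih =>
    have hJ' : J ≠ ⊥ := hJ
    have hP0 : P ≠ ⊥ := hP.ne_zero
    have hPprime : P.IsPrime := (Ideal.prime_iff_isPrime hP0).mp hP
    have hPmax : P.IsMaximal := hPprime.isMaximal hP0
    have hJm : J.map (algebraMap B C) ≠ ⊥ := by
      rwa [Ne, Ideal.map_eq_bot_iff_of_injective hinj]
    have hPm : P.map (algebraMap B C) ≠ ⊥ := by
      rwa [Ne, Ideal.map_eq_bot_iff_of_injective hinj]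
    rw [Ideal.map_mul, normalizedFactors_mul hPm hJm, Multiset.card_add, ih hJ',
      card_normalizedFactors_map_prime K B C hres P hP0, normalizedFactors_mul hP0 hJ',
      normalizedFactors_irreducible hP.irreducible, Multiset.card_add, Multiset.card_singleton]
    ring

end CardMap


section TowerIdentity

variable (K : Type*) [Field K]
variable (A : Type*) (B : Type*) (C : Type*) [CommRing A] [CommRing B] [CommRing C]
  [Algebra A B] [Algebra B C] [Algebra A C] [IsScalarTower A B C]
  [Algebra K B] [Algebra K C] [IsScalarTower K B C]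
  [IsDedekindDomain A] [IsDedekindDomain B] [IsDedekindDomain C]
  [Module.IsTorsionFree A B] [Module.IsTorsionFree B C] [Module.IsTorsionFree A C]
  [Module.Finite A B] [Module.Finite B C] [Module.Finite A C]
  [Algebra.IsSeparable (FractionRing A) (FractionRing C)]

/-- **(G1)** Additivity of the degree of the different in a tower `A ⊆ B ⊆ C` of Dedekind domains
all of whose residue fields are `K`:
`deg 𝔇(C/A) = deg 𝔇(C/B) + [C : B] · deg 𝔇(B/A)`. -/
theorem finrank_quotient_differentIdeal_tower
    (hresB : ∀ P : Ideal B, P.IsMaximal → Function.Surjective (algebraMap K (B ⧸ P)))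
    (hresC : ∀ Q : Ideal C, Q.IsMaximal → Function.Surjective (algebraMap K (C ⧸ Q))) :
    finrank K (C ⧸ differentIdeal A C) =
      finrank K (C ⧸ differentIdeal B C) + finrank B C * finrank K (B ⧸ differentIdeal A B) := by
  have hsepBC : Algebra.IsSeparable (FractionRing B) (FractionRing C) :=
    Algebra.isSeparable_tower_top_of_isSeparable (FractionRing A) _ _
  have hsepAB : Algebra.IsSeparable (FractionRing A) (FractionRing B) :=
    Algebra.isSeparable_tower_bot_of_isSeparable _ _ (FractionRing C)
  have hinj : Function.Injective (algebraMap B C) := FaithfulSMul.algebraMap_injective B C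
  have h1 : differentIdeal B C ≠ ⊥ := differentIdeal_ne_bot
  have h2 : differentIdeal A B ≠ ⊥ := differentIdeal_ne_bot
  have h2' : (differentIdeal A B).map (algebraMap B C) ≠ ⊥ := by
    rwa [Ne, Ideal.map_eq_bot_iff_of_injective hinj]
  have h3 : differentIdeal A C ≠ ⊥ := differentIdeal_ne_bot
  rw [Fermat.Agent.S20.QuotLen9.finrank_quotient_eq_card_normalizedFactors hresC h3,
    Fermat.Agent.S20.QuotLen9.finrank_quotient_eq_card_normalizedFactors hresC h1,
    Fermat.Agent.S20.QuotLen9.finrank_quotient_eq_card_normalizedFactors hresB h2,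
    differentIdeal_eq_differentIdeal_mul_differentIdeal A B C,
    normalizedFactors_mul h1 h2', Multiset.card_add,
    card_normalizedFactors_map K B C hresC _ h2]

end TowerIdentity


section LowerBound

variable (K : Type*) [Field K]
variable (B : Type*) (C : Type*) [CommRing B] [CommRing C] [Algebra B C]
  [Algebra K B] [Algebra K C] [IsScalarTower K B C]
  [IsDedekindDomain B] [IsDedekindDomain C] [Module.IsTorsionFree B C] [Module.Finite B C]
  [Algebra.IsSeparable (FractionRing B) (FractionRing C)]

omit [Algebra K B] [Algebra K C] [IsScalarTower K B C] in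
/-- Exponent of the different at a prime over `p` is at least `e(Q|p) - 1` (any characteristic). -/
theorem count_sub_one_le_count_differentIdeal (p : Ideal B) [p.IsMaximal] (hp0 : p ≠ ⊥)
    {Q : Ideal C} (hQ : Q ∈ IsDedekindDomain.primesOverFinset p C) :
    (normalizedFactors (p.map (algebraMap B C))).count Q - 1 ≤
      (normalizedFactors (differentIdeal B C)).count Q := by
  classical
  rw [IsDedekindDomain.mem_primesOverFinset_iff hp0 C] at hQ
  have hq1 : Q.IsPrime := hQ.1
  have hq2 : Q.LiesOver p := hQ.2
  have hpC : p.map (algebraMap B C) ≠ ⊥ := map_ne_bot_of_ne_bot hp0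
  have hq0 : Q ≠ ⊥ := ne_bot_of_le_ne_bot hpC (map_le_of_le_comap (Q.over_def p).le)
  set v : IsDedekindDomain.HeightOneSpectrum C := ⟨Q, hq1, hq0⟩ with hv
  set e := (normalizedFactors (p.map (algebraMap B C))).count Q with he
  have h1 : Q ^ e ∣ p.map (algebraMap B C) :=
    Ideal.dvd_iff_le.mpr (Fermat.Agent.S20.TameDifferent36.le_pow_count _ hpC v)
  have h2 : Q ^ (e - 1) ∣ differentIdeal B C := pow_sub_one_dvd_differentIdeal B Q e hp0 h1
  have hD : differentIdeal B C ≠ ⊥ := differentIdeal_ne_bot
  by_contra hlt
  push Not at hlt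
  have h3 := Fermat.Agent.S20.TameDifferent36.not_le_pow_count_succ _ hD v
  apply h3
  refine (Ideal.dvd_iff_le.mp h2).trans (Ideal.pow_le_pow_right ?_)
  exact hlt

/-- **(G2)** Lower bound for the degree of the different, any characteristic:
`#S · [C : B] ≤ deg 𝔇(C/B) + ∑_{p ∈ S} #{Q ∣ p}` for every finite set `S` of nonzero maximal ideals
of `B`. -/
theorem card_mul_finrank_le_card_normalizedFactors_differentIdeal_add
    (hres : ∀ Q : Ideal C, Q.IsMaximal → Function.Surjective (algebraMap K (C ⧸ Q)))
    (S : Finset (Ideal B)) (hSmax : ∀ p ∈ S, p.IsMaximal ∧ p ≠ ⊥) :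
    S.card * finrank B C ≤ Multiset.card (normalizedFactors (differentIdeal B C))
      + ∑ p ∈ S, (IsDedekindDomain.primesOverFinset p C).card := by
  classical
  set T : Finset (Ideal C) := S.biUnion (fun p => IsDedekindDomain.primesOverFinset p C) with hTdef
  have hdisj : (S : Set (Ideal B)).PairwiseDisjoint
      (fun p => IsDedekindDomain.primesOverFinset p C) := by
    intro p hp p' hp' hpp'
    rw [Function.onFun, Finset.disjoint_left]
    intro P hP hP'
    have := (hSmax p hp).1
    have := (hSmax p' hp').1
    rw [IsDedekindDomain.mem_primesOverFinset_iff (hSmax p hp).2 C] at hP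
    rw [IsDedekindDomain.mem_primesOverFinset_iff (hSmax p' hp').2 C] at hP'
    have h1 : P.LiesOver p := hP.2
    have h2 : P.LiesOver p' := hP'.2
    exact hpp' ((P.over_def p).trans (P.over_def p').symm)
  have hcard : ∑ Q ∈ T, (normalizedFactors (differentIdeal B C)).count Q ≤
      Multiset.card (normalizedFactors (differentIdeal B C)) := by
    rw [← Multiset.toFinset_sum_count_eq (normalizedFactors (differentIdeal B C))]
    rw [← Finset.sum_filter_add_sum_filter_not T
      (fun Q => Q ∈ (normalizedFactors (differentIdeal B C)).toFinset)]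
    have h0 : ∑ Q ∈ T with Q ∉ (normalizedFactors (differentIdeal B C)).toFinset,
        (normalizedFactors (differentIdeal B C)).count Q = 0 := by
      refine Finset.sum_eq_zero fun Q hQ => ?_
      rw [Finset.mem_filter, Multiset.mem_toFinset] at hQ
      exact Multiset.count_eq_zero_of_notMem hQ.2
    rw [h0, add_zero]
    exact Finset.sum_le_sum_of_subset (fun Q hQ => (Finset.mem_filter.mp hQ).2)
  refine le_trans ?_ (Nat.add_le_add_right hcard _)
  rw [hTdef, Finset.sum_biUnion hdisj, ← Finset.sum_add_distrib, Finset.card_eq_sum_ones,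
    Finset.sum_mul]
  refine Finset.sum_le_sum fun p hp => ?_
  have := (hSmax p hp).1
  rw [one_mul, ← Fermat.Agent.S20.RamCount.sum_count_sub_one_add_card K B C hres p (hSmax p hp).2]
  refine Nat.add_le_add_right (Finset.sum_le_sum fun Q hQ => ?_) _
  exact count_sub_one_le_count_differentIdeal B C p (hSmax p hp).2 hQ

end LowerBound

section PrimesOverTower

variable (A : Type*) (B : Type*) (C : Type*) [CommRing A] [CommRing B] [CommRing C]
  [Algebra A B] [Algebra B C] [Algebra A C] [IsScalarTower A B C]
  [IsDedekindDomain A] [IsDedekindDomain B] [IsDedekindDomain C]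
  [Module.IsTorsionFree A B] [Module.IsTorsionFree B C] [Module.IsTorsionFree A C]

/-- Transitivity of "primes over": `∑_{P ∣ p} #{Q ∣ P} = #{Q ∣ p}`. -/
theorem sum_card_primesOverFinset (p : Ideal A) [p.IsMaximal] (hp0 : p ≠ ⊥) :
    ∑ P ∈ IsDedekindDomain.primesOverFinset p B, (IsDedekindDomain.primesOverFinset P C).card
      = (IsDedekindDomain.primesOverFinset p C).card := by
  classical
  have hmem : ∀ P ∈ IsDedekindDomain.primesOverFinset p B, P.IsMaximal ∧ P ≠ ⊥ := by
    intro P hP
    rw [IsDedekindDomain.mem_primesOverFinset_iff hp0 B] at hP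
    have h1 : P.IsPrime := hP.1
    have h2 : P.LiesOver p := hP.2
    have hpB : p.map (algebraMap A B) ≠ ⊥ := map_ne_bot_of_ne_bot hp0
    have hP0 : P ≠ ⊥ := ne_bot_of_le_ne_bot hpB (map_le_of_le_comap (P.over_def p).le)
    exact ⟨h1.isMaximal hP0, hP0⟩
  have hdisj : ((IsDedekindDomain.primesOverFinset p B : Finset (Ideal B)) :
      Set (Ideal B)).PairwiseDisjoint (fun P => IsDedekindDomain.primesOverFinset P C) := by
    intro P hP P' hP' hPP'
    rw [Function.onFun, Finset.disjoint_left]
    intro Q hQ hQ'
    have := (hmem P hP).1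
    have := (hmem P' hP').1
    rw [IsDedekindDomain.mem_primesOverFinset_iff (hmem P hP).2 C] at hQ
    rw [IsDedekindDomain.mem_primesOverFinset_iff (hmem P' hP').2 C] at hQ'
    have h1 : Q.LiesOver P := hQ.2
    have h2 : Q.LiesOver P' := hQ'.2
    exact hPP' ((Q.over_def P).trans (Q.over_def P').symm)
  rw [← Finset.card_biUnion hdisj]
  congr 1
  ext Q
  rw [Finset.mem_biUnion, IsDedekindDomain.mem_primesOverFinset_iff hp0 C]
  constructor
  · rintro ⟨P, hP, hQ⟩
    have := (hmem P hP).1
    rw [IsDedekindDomain.mem_primesOverFinset_iff (hmem P hP).2 C] at hQ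
    rw [IsDedekindDomain.mem_primesOverFinset_iff hp0 B] at hP
    have h1 : Q.LiesOver P := hQ.2
    have h2 : P.LiesOver p := hP.2
    exact ⟨hQ.1, Ideal.LiesOver.trans Q P p⟩
  · rintro ⟨hQ1, hQ2⟩
    have hQ1' : Q.IsPrime := hQ1
    have hQ2' : Q.LiesOver p := hQ2
    have hPp : (Q.under B).LiesOver p := ⟨by
      rw [Ideal.under_under]
      exact Q.over_def p⟩
    have hPmem : Q.under B ∈ IsDedekindDomain.primesOverFinset p B := by
      rw [IsDedekindDomain.mem_primesOverFinset_iff hp0 B]
      exact ⟨inferInstance, hPp⟩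
    refine ⟨Q.under B, hPmem, ?_⟩
    have := (hmem _ hPmem).1
    rw [IsDedekindDomain.mem_primesOverFinset_iff (hmem _ hPmem).2 C]
    exact ⟨hQ1', ⟨rfl⟩⟩

end PrimesOverTower

section Combined

variable (K : Type*) [Field K]
variable (A : Type*) (B : Type*) (C : Type*) [CommRing A] [CommRing B] [CommRing C]
  [Algebra A B] [Algebra B C] [Algebra A C] [IsScalarTower A B C]
  [Algebra K B] [Algebra K C] [IsScalarTower K B C]
  [IsDedekindDomain A] [IsDedekindDomain B] [IsDedekindDomain C]
  [Module.IsTorsionFree A B] [Module.IsTorsionFree B C] [Module.IsTorsionFree A C]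
  [Module.Finite A B] [Module.Finite B C] [Module.Finite A C]
  [Algebra.IsSeparable (FractionRing A) (FractionRing C)]

/-- **(★)** Lower bound in a tower, any characteristic, over one prime `p` of the base:
`[C:B] · (#{P ∣ p} + deg 𝔇(B/A)) ≤ deg 𝔇(C/A) + #{Q ∣ p}`. -/
theorem finrank_mul_card_add_le
    (hresB : ∀ P : Ideal B, P.IsMaximal → Function.Surjective (algebraMap K (B ⧸ P)))
    (hresC : ∀ Q : Ideal C, Q.IsMaximal → Function.Surjective (algebraMap K (C ⧸ Q)))
    (p : Ideal A) [p.IsMaximal] (hp0 : p ≠ ⊥) :
    finrank B C * ((IsDedekindDomain.primesOverFinset p B).card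
        + finrank K (B ⧸ differentIdeal A B)) ≤
      finrank K (C ⧸ differentIdeal A C) + (IsDedekindDomain.primesOverFinset p C).card := by
  classical
  have hsepBC : Algebra.IsSeparable (FractionRing B) (FractionRing C) :=
    Algebra.isSeparable_tower_top_of_isSeparable (FractionRing A) _ _
  have hmem : ∀ P ∈ IsDedekindDomain.primesOverFinset p B, P.IsMaximal ∧ P ≠ ⊥ := by
    intro P hP
    rw [IsDedekindDomain.mem_primesOverFinset_iff hp0 B] at hP
    have h1 : P.IsPrime := hP.1
    have h2 : P.LiesOver p := hP.2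
    have hpB : p.map (algebraMap A B) ≠ ⊥ := map_ne_bot_of_ne_bot hp0
    have hP0 : P ≠ ⊥ := ne_bot_of_le_ne_bot hpB (map_le_of_le_comap (P.over_def p).le)
    exact ⟨h1.isMaximal hP0, hP0⟩
  have h1 := finrank_quotient_differentIdeal_tower K A B C hresB hresC
  have h2 := card_mul_finrank_le_card_normalizedFactors_differentIdeal_add K B C hresC
    (IsDedekindDomain.primesOverFinset p B) hmem
  rw [sum_card_primesOverFinset A B C p hp0,
    ← Fermat.Agent.S20.QuotLen9.finrank_quotient_eq_card_normalizedFactors hresC
      (differentIdeal_ne_bot (A := B) (B := C))] at h2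
  rw [h1]
  nlinarith [h2]

end Combined

end Fermat.Agent.S18.RH92
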