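import Mathlib
import Fermat.Agent.S20.TameDual79
import Fermat.Agent.S20.RamCountPoly
import Fermat.Agent.S18.RH92.Tower

set_option autoImplicit false
set_option linter.unusedSectionVars false

namespace Fermat.Agent.S18.RH92

open Module UniqueFactorizationMonoid Ideal

attribute [local instance] FractionRing.liftAlgebra FractionRing.isScalarTower_liftAlgebra
  Ideal.Quotient.field

noncomputable section

section ICMap

variable (A F F' : Type*) [CommRing A] [Field F] [Field F'] [Algebra A F] [Algebra A F']
  [Algebra F F'] [IsScalarTower A F F']

/-- The inclusion of integral closures `integralClosure A F → integralClosure A F'`. -/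
def icMap : integralClosure A F →ₐ[A] integralClosure A F' :=
  (IsScalarTower.toAlgHom A F F').mapIntegralClosure

theorem coe_icMap (x : integralClosure A F) :
    ((icMap A F F' x : integralClosure A F') : F') = algebraMap F F' (x : F) := rfl

/-- `integralClosure A F'` as an algebra over `integralClosure A F` (NOT a global instance). -/
@[reducible] def icAlgebra : Algebra (integralClosure A F) (integralClosure A F') :=
  (icMap A F F').toRingHom.toAlgebra

attribute [local instance] icAlgebra

theorem icAlgebraMap_apply (x : integralClosure A F) :
    ((algebraMap (integralClosure A F) (integralClosure A F') x : integralClosure A F') : F')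
      = algebraMap F F' (x : F) := rfl

theorem isScalarTower_ic : IsScalarTower A (integralClosure A F) (integralClosure A F') :=
  IsScalarTower.of_algebraMap_eq fun a => ((icMap A F F').commutes a).symm

theorem isScalarTower_ic_F' : IsScalarTower (integralClosure A F) (integralClosure A F') F' :=
  IsScalarTower.of_algebraMap_eq fun _ => rfl

theorem isScalarTower_ic_FF' : IsScalarTower (integralClosure A F) F F' :=
  IsScalarTower.of_algebraMap_eq fun _ => rfl

theorem icAlgebraMap_injective :
    Function.Injective (algebraMap (integralClosure A F) (integralClosure A F')) := by
  intro x y h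
  have := congrArg (fun z : integralClosure A F' => (z : F')) h
  simp only [icAlgebraMap_apply] at this
  exact Subtype.ext ((algebraMap F F').injective this)

theorem isTorsionFree_ic : Module.IsTorsionFree (integralClosure A F) (integralClosure A F') :=
  Module.IsTorsionFree.of_smul_eq_zero fun r m h => by
    rw [Algebra.smul_def, mul_eq_zero] at h
    rcases h with h | h
    · left
      exact icAlgebraMap_injective A F F' (by rw [h, map_zero])
    · exact Or.inr h

end ICMap

section ICFacts

variable (K : Type*) [Field K] [IsAlgClosed K]
variable (A K₀ F F' : Type*) [CommRing A] [IsDedekindDomain A] [Field K₀] [Algebra A K₀]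
  [IsFractionRing A K₀] [Field F] [Field F'] [Algebra K₀ F] [Algebra K₀ F'] [Algebra F F']
  [IsScalarTower K₀ F F'] [Algebra A F] [Algebra A F'] [IsScalarTower A K₀ F]
  [IsScalarTower A K₀ F'] [IsScalarTower A F F']
  [FiniteDimensional K₀ F'] [Algebra.IsSeparable K₀ F']
  [Algebra K A] [Algebra K F] [Algebra K F'] [IsScalarTower K A F] [IsScalarTower K A F']

attribute [local instance] icAlgebra isTorsionFree_ic isScalarTower_ic

include K₀ in
theorem isTorsionFree_base : Module.IsTorsionFree A F :=
  Module.IsTorsionFree.trans (R := K₀)

include A in
theorem isScalarTower_KFF' : IsScalarTower K F F' :=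
  IsScalarTower.of_algebraMap_eq fun c => by
    rw [IsScalarTower.algebraMap_apply K A F', IsScalarTower.algebraMap_apply A F F',
      ← IsScalarTower.algebraMap_apply K A F]

theorem isScalarTower_K_ic :
    IsScalarTower K (integralClosure A F) (integralClosure A F') :=
  IsScalarTower.of_algebraMap_eq fun c => by
    have := isScalarTower_KFF' K A F F'
    apply Subtype.ext
    rw [icAlgebraMap_apply]
    exact IsScalarTower.algebraMap_apply K F F' c

/-- All residue fields of `integralClosure A F` are `K`. -/
theorem ic_hres (hresA : ∀ p : Ideal A, p.IsMaximal → Function.Surjective (algebraMap K (A ⧸ p)))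
    (P : Ideal (integralClosure A F)) (hP : P.IsMaximal) :
    Function.Surjective (algebraMap K (integralClosure A F ⧸ P)) :=
  haveI := hP
  Fermat.Agent.S20.RamCountPoly.surjective_algebraMap_quotient_of_isAlgClosed K A hresA P

variable [IsDedekindDomain (integralClosure A F)] [IsDedekindDomain (integralClosure A F')]
  [Module.IsTorsionFree A (integralClosure A F)] [Module.IsTorsionFree A (integralClosure A F')]

include K₀ in
/-- The bundle of facts needed to apply `Tower.lean` to `A ⊆ integralClosure A F ⊆
integralClosure A F'`. -/
theorem ic_facts :
    Module.Finite A (integralClosure A F) ∧ Module.Finite A (integralClosure A F') ∧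
    Module.Finite (integralClosure A F) (integralClosure A F') ∧
    Algebra.IsSeparable (FractionRing A) (FractionRing (integralClosure A F')) ∧
    finrank (integralClosure A F) (integralClosure A F') = finrank F F' := by
  have hfdF : FiniteDimensional K₀ F := FiniteDimensional.left K₀ F F'
  have hsepF : Algebra.IsSeparable K₀ F := Algebra.isSeparable_tower_bot_of_isSeparable K₀ F F'
  have hfinB : Module.Finite A (integralClosure A F) :=
    IsIntegralClosure.finite A K₀ F (integralClosure A F)
  have hfinC : Module.Finite A (integralClosure A F') :=
    IsIntegralClosure.finite A K₀ F' (integralClosure A F')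
  have htow := isScalarTower_ic A F F'
  have hfinBC : Module.Finite (integralClosure A F) (integralClosure A F') :=
    Module.Finite.of_restrictScalars_finite A (integralClosure A F) (integralClosure A F')
  have hfrB : IsFractionRing (integralClosure A F) F :=
    integralClosure.isFractionRing_of_finite_extension K₀ F
  have hfrC : IsFractionRing (integralClosure A F') F' :=
    integralClosure.isFractionRing_of_finite_extension K₀ F'
  have hsep : Algebra.IsSeparable (FractionRing A) (FractionRing (integralClosure A F')) :=
    Fermat.Agent.S20.TameDual79.isSeparable_fractionRing A K₀ F' (integralClosure A F')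
  have h1 := isScalarTower_ic_F' A F F'
  have h2 := isScalarTower_ic_FF' A F F'
  refine ⟨hfinB, hfinC, hfinBC, hsep, ?_⟩
  exact (IsFractionRing.finrank_eq (integralClosure A F) F (integralClosure A F') F').symm

include K₀ in
/-- **(R1), generic chart**: additivity of the degree of the different in the tower
`A ⊆ integralClosure A F ⊆ integralClosure A F'`. -/
theorem ic_finrank_quotient_differentIdeal_tower
    (hresA : ∀ p : Ideal A, p.IsMaximal → Function.Surjective (algebraMap K (A ⧸ p))) :
    finrank K (integralClosure A F' ⧸ differentIdeal A (integralClosure A F')) =
      finrank K (integralClosure A F' ⧸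
          differentIdeal (integralClosure A F) (integralClosure A F'))
        + finrank F F' *
          finrank K (integralClosure A F ⧸ differentIdeal A (integralClosure A F)) := by
  obtain ⟨hfinB, hfinC, hfinBC, hsep, hrank⟩ := ic_facts A K₀ F F'
  have htow := isScalarTower_ic A F F'
  have htf := isTorsionFree_ic A F F'
  have hK := isScalarTower_K_ic K A F F'
  rw [← hrank]
  exact finrank_quotient_differentIdeal_tower K A (integralClosure A F) (integralClosure A F')
    (ic_hres K A F hresA) (ic_hres K A F' hresA)

include K₀ in
/-- **(R2), generic chart**: lower bound over one prime `p` of the base, any characteristic. -/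
theorem ic_finrank_mul_card_add_le
    (hresA : ∀ p : Ideal A, p.IsMaximal → Function.Surjective (algebraMap K (A ⧸ p)))
    (p : Ideal A) [p.IsMaximal] (hp0 : p ≠ ⊥) :
    finrank F F' * ((IsDedekindDomain.primesOverFinset p (integralClosure A F)).card
        + finrank K (integralClosure A F ⧸ differentIdeal A (integralClosure A F))) ≤
      finrank K (integralClosure A F' ⧸ differentIdeal A (integralClosure A F'))
        + (IsDedekindDomain.primesOverFinset p (integralClosure A F')).card := by
  obtain ⟨hfinB, hfinC, hfinBC, hsep, hrank⟩ := ic_facts A K₀ F F'
  have htow := isScalarTower_ic A F F'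
  have htf := isTorsionFree_ic A F F'
  have hK := isScalarTower_K_ic K A F F'
  rw [← hrank]
  exact finrank_mul_card_add_le K A (integralClosure A F) (integralClosure A F')
    (ic_hres K A F hresA) (ic_hres K A F' hresA) p hp0

end ICFacts

end

end Fermat.Agent.S18.RH92
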