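import Mathlib
import Fermat.Agent.S18.DW63.Setup
import Fermat.Agent.S18.RH92.IC
import Fermat.Agent.S20.T1.RamCountT1

/-!
# S18 / [RH] (helper92): characteristic-free Riemann–Hurwitz, RatFunc instance

Setting: `K` algebraically closed (ANY characteristic), `RatFunc K ⊆ F ⊆ F'` fields with
`F' / RatFunc K` finite separable; `Bfin`, `Binf` as in `S20/T1/Setup` and `S18/DW63/Setup`.

With `Dfin F := dim_K (Bfin F ⧸ 𝔇(Bfin F / K[X]))`, `Dinf F := dim_K (Binf F ⧸ 𝔇(Binf F / O_∞))`,
`cInf F := #{primes of Binf F}`: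

* `Dfin_tower`, `Dinf_tower`   : (RH1) `D(F') = D(F'/F) + [F':F] · D(F)`;
* `Dfin_mono`                  : `[F':F] · Dfin F ≤ Dfin F'`;
* `Dinf_cusp_le`               : (RH2) `[F':F] · (cInf F + Dinf F) ≤ Dinf F' + cInf F'`;
* `card_primesOverFinset_eq_natCard` : `cInf F = Nat.card (HeightOneSpectrum (Binf K F))`;
* `gam2_lower_bound`           : with `gam2 F := -2 [F:K(x)] + Dfin F + Dinf F` (`= 2 g_R - 2` by
  [DW]):  `[F':F] · (gam2 F + cInf F) ≤ gam2 F' + cInf F'`  (integers).
-/

set_option autoImplicit false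
set_option linter.unusedSectionVars false
set_option linter.style.haveILetI false

open Polynomial IsDedekindDomain Module Ideal

noncomputable section

namespace Fermat.Agent.S18.RH92

open Fermat.Agent.S20.NormalBasis (Oinf)
open Fermat.Agent.S20 Fermat.Agent.S20.T1
open Fermat.Agent.S18.DW63

/-! ### residue fields of the two base rings -/

section Base
variable (K : Type*) [Field K] [IsAlgClosed K]

theorem hres_poly (p : Ideal K[X]) (hp : p.IsMaximal) :
    Function.Surjective (algebraMap K (K[X] ⧸ p)) := by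
  have := hp
  obtain ⟨c, rfl⟩ := RamCountPoly.exists_eq_span_X_sub_C p
  exact RamCountPoly.surjective_algebraMap_quotient_span_X_sub_C c

omit [IsAlgClosed K] in
theorem hres_Oinf (p : Ideal (Oinf K)) (hp : p.IsMaximal) :
    Function.Surjective (algebraMap K (Oinf K ⧸ p)) := by
  obtain rfl := IsLocalRing.eq_maximalIdeal hp
  exact RamCountT1.surjective_algebraMap_residue_Oinf K

omit [IsAlgClosed K] in
theorem maximalIdeal_Oinf_ne_bot : IsLocalRing.maximalIdeal (Oinf K) ≠ ⊥ :=
  IsDiscreteValuationRing.not_a_field (Oinf K)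

end Base

/-! ### the number of primes of `Binf` -/

section CInf

variable (K F : Type*) [Field K] [Field F]
  [Algebra K F] [Algebra (RatFunc K) F] [IsScalarTower K (RatFunc K) F]
  [Algebra K[X] F] [IsScalarTower K[X] (RatFunc K) F]
  [FiniteDimensional (RatFunc K) F] [Algebra.IsSeparable (RatFunc K) F]

/-- The number of primes of `Binf K F` (= places of `F` over `x = ∞`). -/
def cInf : ℕ := (IsDedekindDomain.primesOverFinset (IsLocalRing.maximalIdeal (Oinf K)) (Binf K F)).card

theorem liesOver_maximalIdeal (w : HeightOneSpectrum (Binf K F)) :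
    w.asIdeal.LiesOver (IsLocalRing.maximalIdeal (Oinf K)) := by
  constructor
  have hle : IsLocalRing.maximalIdeal (Oinf K) ≤ w.asIdeal.under (Oinf K) := by
    rw [← T1Inf69.mInf_eq_maximalIdeal, T1Inf69.mInf_eq_span, Ideal.span_singleton_le_iff_mem,
      Ideal.under_def, Ideal.mem_comap]
    exact piInf_mem K F w
  have hne : w.asIdeal.under (Oinf K) ≠ ⊤ := (Ideal.IsPrime.under (Oinf K) w.asIdeal).ne_top
  exact ((IsLocalRing.maximalIdeal.isMaximal (Oinf K)).eq_of_le hne hle)

theorem mem_primesOverFinset_maximalIdeal (w : HeightOneSpectrum (Binf K F)) :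
    w.asIdeal ∈ IsDedekindDomain.primesOverFinset (IsLocalRing.maximalIdeal (Oinf K)) (Binf K F) :=
  (IsDedekindDomain.mem_primesOverFinset_iff (maximalIdeal_Oinf_ne_bot K) (Binf K F)).mpr
    ⟨w.isPrime, liesOver_maximalIdeal K F w⟩

theorem card_primesOverFinset_eq_natCard :
    cInf K F = Nat.card (HeightOneSpectrum (Binf K F)) := by
  classical
  have hp0 := maximalIdeal_Oinf_ne_bot K
  have hprime : ∀ P ∈ IsDedekindDomain.primesOverFinset (IsLocalRing.maximalIdeal (Oinf K)) (Binf K F),
      P.IsPrime ∧ P.LiesOver (IsLocalRing.maximalIdeal (Oinf K)) := fun P hP =>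
    (IsDedekindDomain.mem_primesOverFinset_iff hp0 (Binf K F)).mp hP
  have hne : ∀ P ∈ IsDedekindDomain.primesOverFinset (IsLocalRing.maximalIdeal (Oinf K)) (Binf K F), P ≠ ⊥ := by
    intro P hP hbot
    have hlo := (hprime P hP).2
    apply hp0
    rw [hlo.over, hbot]
    exact Ideal.under_bot (Oinf K) (Binf K F)
  let e : {P // P ∈ IsDedekindDomain.primesOverFinset (IsLocalRing.maximalIdeal (Oinf K)) (Binf K F)} ≃
      HeightOneSpectrum (Binf K F) :=
    { toFun := fun P => ⟨P.1, (hprime P.1 P.2).1, hne P.1 P.2⟩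
      invFun := fun w => ⟨w.asIdeal, mem_primesOverFinset_maximalIdeal K F w⟩
      left_inv := fun P => rfl
      right_inv := fun w => rfl }
  rw [← Nat.card_congr e, Nat.card_eq_fintype_card, Fintype.card_coe, cInf]

theorem card_primesOverFinset_eq_fintypeCard :
    cInf K F = Fintype.card (HeightOneSpectrum (Binf K F)) := by
  rw [card_primesOverFinset_eq_natCard, Nat.card_eq_fintype_card]

/-- `cInf` is the number of places of `F / K` over `x = ∞`. -/
theorem cInf_eq_ncard_placesOverInfty :
    cInf K F = Set.ncard (Fermat.Agent.S24.placesOverInfty K (xF K F)) := by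
  rw [card_primesOverFinset_eq_natCard, ← Nat.card_coe_set_eq]
  exact Nat.card_congr (T1Inf69.equivPlacesOverInfty (k := K) (F := F))

end CInf

section Tower

variable (K F F' : Type*) [Field K] [IsAlgClosed K] [Field F] [Field F']
  [Algebra K F] [Algebra (RatFunc K) F] [IsScalarTower K (RatFunc K) F]
  [Algebra K[X] F] [IsScalarTower K[X] (RatFunc K) F]
  [Algebra K F'] [Algebra (RatFunc K) F'] [IsScalarTower K (RatFunc K) F']
  [Algebra K[X] F'] [IsScalarTower K[X] (RatFunc K) F']
  [Algebra F F'] [IsScalarTower (RatFunc K) F F']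
  [FiniteDimensional (RatFunc K) F] [Algebra.IsSeparable (RatFunc K) F]
  [FiniteDimensional (RatFunc K) F'] [Algebra.IsSeparable (RatFunc K) F']

omit [IsAlgClosed K] [Algebra K F] [IsScalarTower K (RatFunc K) F] [Algebra K F']
  [IsScalarTower K (RatFunc K) F'] [FiniteDimensional (RatFunc K) F]
  [Algebra.IsSeparable (RatFunc K) F] [FiniteDimensional (RatFunc K) F']
  [Algebra.IsSeparable (RatFunc K) F'] in
theorem isScalarTower_poly_FF' : IsScalarTower K[X] F F' :=
  IsScalarTower.of_algebraMap_eq fun c => by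
    rw [IsScalarTower.algebraMap_apply K[X] (RatFunc K) F',
      IsScalarTower.algebraMap_apply (RatFunc K) F F',
      ← IsScalarTower.algebraMap_apply K[X] (RatFunc K) F]

omit [IsAlgClosed K] [Algebra K F] [IsScalarTower K (RatFunc K) F] [Algebra K F']
  [IsScalarTower K (RatFunc K) F'] [FiniteDimensional (RatFunc K) F]
  [Algebra.IsSeparable (RatFunc K) F] [FiniteDimensional (RatFunc K) F']
  [Algebra.IsSeparable (RatFunc K) F'] [Algebra K[X] F] [IsScalarTower K[X] (RatFunc K) F]
  [Algebra K[X] F'] [IsScalarTower K[X] (RatFunc K) F'] in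
theorem isScalarTower_Oinf_FF' : IsScalarTower (Oinf K) F F' :=
  IsScalarTower.of_algebraMap_eq fun c => by
    rw [IsScalarTower.algebraMap_apply (Oinf K) (RatFunc K) F',
      IsScalarTower.algebraMap_apply (RatFunc K) F F',
      ← IsScalarTower.algebraMap_apply (Oinf K) (RatFunc K) F]

/-- the degree of the different of `Bfin K F / K[X]`. -/
def Dfin : ℕ := finrank K (Bfin K F ⧸ differentIdeal K[X] (Bfin K F))

/-- the degree of the different of `Binf K F / Oinf K`. -/
def Dinf : ℕ := finrank K (Binf K F ⧸ differentIdeal (Oinf K) (Binf K F))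

/-- **(RH1), finite chart.** -/
theorem Dfin_tower :
    haveI := isScalarTower_poly_FF' K F F'
    letI := icAlgebra K[X] F F'
    haveI := isTorsionFree_ic K[X] F F'
    finrank K (Bfin K F' ⧸ differentIdeal K[X] (Bfin K F')) =
      finrank K (Bfin K F' ⧸ differentIdeal (Bfin K F) (Bfin K F'))
        + finrank F F' * finrank K (Bfin K F ⧸ differentIdeal K[X] (Bfin K F)) := by
  have := isScalarTower_poly_FF' K F F'
  exact ic_finrank_quotient_differentIdeal_tower K K[X] (RatFunc K) F F' (hres_poly K)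

/-- **(RH1), chart at infinity.** -/
theorem Dinf_tower :
    haveI := isScalarTower_Oinf_FF' K F F'
    letI := icAlgebra (Oinf K) F F'
    haveI := isTorsionFree_ic (Oinf K) F F'
    finrank K (Binf K F' ⧸ differentIdeal (Oinf K) (Binf K F')) =
      finrank K (Binf K F' ⧸ differentIdeal (Binf K F) (Binf K F'))
        + finrank F F' * finrank K (Binf K F ⧸ differentIdeal (Oinf K) (Binf K F)) := by
  have := isScalarTower_Oinf_FF' K F F'
  exact ic_finrank_quotient_differentIdeal_tower K (Oinf K) (RatFunc K) F F' (hres_Oinf K)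

/-- `[F':F] · Dfin F ≤ Dfin F'` (any characteristic). -/
theorem Dfin_mono :
    finrank F F' * finrank K (Bfin K F ⧸ differentIdeal K[X] (Bfin K F)) ≤
      finrank K (Bfin K F' ⧸ differentIdeal K[X] (Bfin K F')) := by
  rw [Dfin_tower K F F']
  exact Nat.le_add_left _ _

/-- `[F':F] · Dinf F ≤ Dinf F'` (any characteristic). -/
theorem Dinf_mono :
    finrank F F' * finrank K (Binf K F ⧸ differentIdeal (Oinf K) (Binf K F)) ≤
      finrank K (Binf K F' ⧸ differentIdeal (Oinf K) (Binf K F')) := by
  rw [Dinf_tower K F F']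
  exact Nat.le_add_left _ _

/-- **(RH2)** `[F':F] · (cInf F + Dinf F) ≤ Dinf F' + cInf F'` (any characteristic). -/
theorem Dinf_cusp_le :
    finrank F F' * (cInf K F
        + finrank K (Binf K F ⧸ differentIdeal (Oinf K) (Binf K F))) ≤
      finrank K (Binf K F' ⧸ differentIdeal (Oinf K) (Binf K F')) + cInf K F' := by
  have := isScalarTower_Oinf_FF' K F F'
  exact ic_finrank_mul_card_add_le K (Oinf K) (RatFunc K) F F' (hres_Oinf K)
    (IsLocalRing.maximalIdeal (Oinf K)) (maximalIdeal_Oinf_ne_bot K)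

/-- `gam2 F = -2 [F : K(x)] + Dfin F + Dinf F` (`= 2 g_R(F) - 2` by Dedekind–Weber). -/
def gam2 : ℤ :=
  -2 * (finrank (RatFunc K) F : ℤ) + (Dfin K F : ℤ) + (Dinf K F : ℤ)

/-- **Riemann–Hurwitz lower bound, any characteristic**:
`[F':F] · (gam2 F + cInf F) ≤ gam2 F' + cInf F'`. -/
theorem gam2_lower_bound :
    (finrank F F' : ℤ) * (gam2 K F + cInf K F) ≤ gam2 K F' + cInf K F' := by
  have h1 := Dfin_mono K F F'
  have h2 := Dinf_cusp_le K F F'
  have h3 : finrank (RatFunc K) F' = finrank (RatFunc K) F * finrank F F' :=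
    (finrank_mul_finrank (RatFunc K) F F').symm
  unfold gam2 Dfin Dinf
  rw [h3]
  push_cast
  zify at h1 h2
  nlinarith [h1, h2]

end Tower
end Fermat.Agent.S18.RH92
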