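import Mathlib
import Fermat.Agent.S18.RH92.RatFunc
import Fermat.Agent.S18.DW63.Riemann

/-!
# S18 / [RH] (helper92): Riemann–Hurwitz lower bound in GENUS form

Combination of `RH92/RatFunc.lean` (`gam2_lower_bound`) with helper63's Dedekind–Weber package
(`DW63.two_mul_dwGenus_sub_two_finrank`, `DW63.gR_eq_dwGenus`), in the separable RatFunc setting over
an algebraically closed field `K` of ANY characteristic, for a tower `RatFunc K ⊆ F ⊆ F'`:

* `gam2_eq_two_mul_dwGenus_sub_two` : `gam2 K F = 2 * dwGenus K F - 2`;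
* `rh_dwGenus` : `[F':F] * (2 g(F) - 2 + c(F)) ≤ 2 g(F') - 2 + c(F')`, `g = DW63.dwGenus`,
  `c = cInf` = number of primes of `Binf` = number of places over `x = ∞`;
* `rh_gR` : the same with helper12's `Riemann12.gR`;
* `rh_gR_places` : the same with `c = Set.ncard (S24.placesOverInfty K (xF K _))`.
-/

set_option autoImplicit false
set_option linter.unusedSectionVars false

open Polynomial IsDedekindDomain Module Ideal AlgebraicCurve

noncomputable section

namespace Fermat.Agent.S18.RH92

open Fermat.Agent.S20.NormalBasis (Oinf)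
open Fermat.Agent.S20 Fermat.Agent.S20.T1
open Fermat.Agent.S18.DW63

section One

variable (K F : Type*) [Field K] [IsAlgClosed K] [Field F]
  [Algebra K F] [Algebra (RatFunc K) F] [IsScalarTower K (RatFunc K) F]
  [Algebra K[X] F] [IsScalarTower K[X] (RatFunc K) F]
  [FiniteDimensional (RatFunc K) F] [Algebra.IsSeparable (RatFunc K) F]

/-- `gam2 = 2 g - 2` for the Dedekind–Weber genus. -/
theorem gam2_eq_two_mul_dwGenus_sub_two : gam2 K F = 2 * (dwGenus K F : ℤ) - 2 := by
  rw [two_mul_dwGenus_sub_two_finrank]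
  rfl

/-- `gam2 = 2 g_R - 2` for the Riemann genus of `Riemann12`. -/
theorem gam2_eq_two_mul_gR_sub_two [HasPrincipalDivisors K F] :
    gam2 K F = 2 * Riemann12.gR K F - 2 := by
  rw [gR_eq_dwGenus, gam2_eq_two_mul_dwGenus_sub_two]

end One

section Tower

variable (K F F' : Type*) [Field K] [IsAlgClosed K] [Field F] [Field F']
  [Algebra K F] [Algebra (RatFunc K) F] [IsScalarTower K (RatFunc K) F]
  [Algebra K[X] F] [IsScalarTower K[X] (RatFunc K) F]
  [Algebra K F'] [Algebra (RatFunc K) F'] [IsScalarTower K (RatFunc K) F']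
  [Algebra K[X] F'] [IsScalarTower K[X] (RatFunc K) F']
  [Algebra F F'] [IsScalarTower (RatFunc K) F F']
  [FiniteDimensional (RatFunc K) F] [Algebra.IsSeparable (RatFunc K) F]
  [FiniteDimensional (RatFunc K) F'] [Algebra.IsSeparable (RatFunc K) F']

/-- **Riemann–Hurwitz lower bound (any characteristic), Dedekind–Weber genus.** -/
theorem rh_dwGenus :
    (finrank F F' : ℤ) * (2 * (dwGenus K F : ℤ) - 2 + cInf K F) ≤
      2 * (dwGenus K F' : ℤ) - 2 + cInf K F' := by
  rw [← gam2_eq_two_mul_dwGenus_sub_two, ← gam2_eq_two_mul_dwGenus_sub_two]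
  exact gam2_lower_bound K F F'

/-- **Riemann–Hurwitz lower bound (any characteristic), Riemann genus.** -/
theorem rh_gR [HasPrincipalDivisors K F] [HasPrincipalDivisors K F'] :
    (finrank F F' : ℤ) * (2 * Riemann12.gR K F - 2 + cInf K F) ≤
      2 * Riemann12.gR K F' - 2 + cInf K F' := by
  rw [← gam2_eq_two_mul_gR_sub_two, ← gam2_eq_two_mul_gR_sub_two]
  exact gam2_lower_bound K F F'

/-- The same with the number of places over `x = ∞`. -/
theorem rh_gR_places [HasPrincipalDivisors K F] [HasPrincipalDivisors K F'] :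
    (finrank F F' : ℤ) * (2 * Riemann12.gR K F - 2
        + (Set.ncard (Fermat.Agent.S24.placesOverInfty K (xF K F)) : ℤ)) ≤
      2 * Riemann12.gR K F' - 2
        + (Set.ncard (Fermat.Agent.S24.placesOverInfty K (xF K F')) : ℤ) := by
  rw [← cInf_eq_ncard_placesOverInfty, ← cInf_eq_ncard_placesOverInfty]
  exact rh_gR K F F'

/-- With base genus `≥ 0` dropped: `2 g(F') - 2 ≥ -2 d + d c(F) - c(F')`. -/
theorem rh_dwGenus_base :
    -2 * (finrank F F' : ℤ) + (finrank F F' : ℤ) * cInf K F - cInf K F' ≤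
      2 * (dwGenus K F' : ℤ) - 2 := by
  have h := rh_dwGenus K F F'
  have hg : (0 : ℤ) ≤ (dwGenus K F : ℤ) := Int.natCast_nonneg _
  have hd : (0 : ℤ) ≤ (finrank F F' : ℤ) := Int.natCast_nonneg _
  nlinarith

end Tower

end Fermat.Agent.S18.RH92
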