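import Mathlib
import Fermat.Agent.S18.RH92.Genus
import Fermat.Agent.S18.DW63.Transfer

/-!
# S18 / [RH] (helper92): instance-free (Prelude Place API) form of the Riemann–Hurwitz lower bound

* `ratFunc_algHom_ext` : `K`-algebra homs out of `RatFunc K` are determined by the image of `X`;
* `isScalarTower_algRat hx₀ hx₁` : for `F₀ ⊆ F₁`, `x₀ : F₀` transcendental, the structures
  `S20.T1Setup.algRat hx₀` on `F₀` and `S20.T1Setup.algRat hx₁` on `F₁`
  (`hx₁ : Transcendental K (algebraMap F₀ F₁ x₀)`) satisfy `IsScalarTower (RatFunc K) F₀ F₁`;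
* `rh_of_separating` : `K` alg. closed (ANY characteristic), `x₀` separating for `F₀` and `F₁`:
  `[F₁:F₀] * (2 gR K F₀ - 2 + #placesOverInfty K x₀) ≤ 2 gR K F₁ - 2 + #placesOverInfty K x₁`;
* `rh_of_separating_base` : `-2 d + d c(F₀) - c(F₁) ≤ 2 gR K F₁ - 2`.
No RatFunc instances appear in the statements of the last two.
-/

set_option autoImplicit false
set_option linter.unusedSectionVars false
set_option linter.style.haveILetI false

open Polynomial IsDedekindDomain Module Ideal AlgebraicCurve IntermediateField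

noncomputable section

namespace Fermat.Agent.S18.RH92

open Fermat.Agent.S20 Fermat.Agent.S20.T1
open Fermat.Agent.S18.DW63

section TowerInst

variable {K F₀ F₁ : Type*} [Field K] [Field F₀] [Field F₁] [Algebra K F₀] [Algebra K F₁]
  [Algebra F₀ F₁] [IsScalarTower K F₀ F₁]

theorem transcendental_algebraMap {x₀ : F₀} (hx₀ : Transcendental K x₀) :
    Transcendental K (algebraMap F₀ F₁ x₀) :=
  (transcendental_algebraMap_iff (algebraMap F₀ F₁).injective).mpr hx₀

/-- two `K`-algebra homs out of `RatFunc K` agreeing at `X` are equal. -/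
theorem ratFunc_algHom_ext {B : Type*} [CommRing B] [Algebra K B] {f g : RatFunc K →ₐ[K] B}
    (h : f RatFunc.X = g RatFunc.X) : f = g := by
  have h1 : (f : RatFunc K →+* B).comp (algebraMap K[X] (RatFunc K)) =
      (g : RatFunc K →+* B).comp (algebraMap K[X] (RatFunc K)) := by
    refine Polynomial.ringHom_ext (fun a => ?_) ?_
    · simp only [RingHom.comp_apply, RingHom.coe_coe]
      rw [← Polynomial.algebraMap_eq, ← IsScalarTower.algebraMap_apply K K[X] (RatFunc K),
        f.commutes, g.commutes]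
    · simp only [RingHom.comp_apply, RingHom.coe_coe, RatFunc.algebraMap_X]
      exact h
  have h2 := IsLocalization.ringHom_ext (nonZeroDivisors K[X]) h1
  exact AlgHom.coe_ringHom_injective h2

/-- The two `RatFunc K`-structures `X ↦ x₀` on `F₀` and `X ↦ algebraMap F₀ F₁ x₀` on `F₁` are
compatible. -/
theorem isScalarTower_algRat {x₀ : F₀} (hx₀ : Transcendental K x₀)
    (hx₁ : Transcendental K (algebraMap F₀ F₁ x₀)) :
    letI := T1Setup.algRat hx₀
    letI := T1Setup.algRat hx₁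
    IsScalarTower (RatFunc K) F₀ F₁ := by
  letI := T1Setup.algRat hx₀
  letI := T1Setup.algRat hx₁
  refine IsScalarTower.of_algebraMap_eq fun r => ?_
  show T1Setup.ratHom hx₁ r = algebraMap F₀ F₁ (T1Setup.ratHom hx₀ r)
  have : T1Setup.ratHom hx₁ = (IsScalarTower.toAlgHom K F₀ F₁).comp (T1Setup.ratHom hx₀) := by
    apply ratFunc_algHom_ext
    rw [AlgHom.comp_apply, T1Setup.ratHom_X, T1Setup.ratHom_X]
    rfl
  rw [this]
  rfl

end TowerInst

section Places

variable {K F₀ F₁ : Type*} [Field K] [IsAlgClosed K] [Field F₀] [Field F₁] [Algebra K F₀]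
  [Algebra K F₁] [Algebra F₀ F₁] [IsScalarTower K F₀ F₁]

open Fermat.Agent.S18.Riemann12 (gR)

/-- **Riemann–Hurwitz lower bound, any characteristic, instance-free Place-API form.**
`K` algebraically closed, `F₀ ⊆ F₁`, `x₀ ∈ F₀` transcendental and separating for both fields:
`[F₁:F₀] (2 g(F₀) - 2 + c(F₀)) ≤ 2 g(F₁) - 2 + c(F₁)`, `c` = number of places over `x₀ = ∞`,
`g = Riemann12.gR`. -/
theorem rh_of_separating {x₀ : F₀} (hx₀ : Transcendental K x₀)
    [FiniteDimensional K⟮x₀⟯ F₀] [Algebra.IsSeparable K⟮x₀⟯ F₀]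
    [FiniteDimensional K⟮algebraMap F₀ F₁ x₀⟯ F₁]
    [Algebra.IsSeparable K⟮algebraMap F₀ F₁ x₀⟯ F₁] :
    (finrank F₀ F₁ : ℤ) * (2 * gR K F₀ - 2
        + (Set.ncard (Fermat.Agent.S24.placesOverInfty K x₀) : ℤ)) ≤
      2 * gR K F₁ - 2
        + (Set.ncard (Fermat.Agent.S24.placesOverInfty K (algebraMap F₀ F₁ x₀)) : ℤ) := by
  have hx₁ : Transcendental K (algebraMap F₀ F₁ x₀) := transcendental_algebraMap hx₀
  let S₀ := ratSetting (K := K) hx₀
  let S₁ := ratSetting (K := K) hx₁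
  letI := S₀.algRat; letI := S₀.algPoly
  haveI := S₀.tower_K; haveI := S₀.tower_poly; haveI := S₀.fin; haveI := S₀.sep
  letI := S₁.algRat; letI := S₁.algPoly
  haveI := S₁.tower_K; haveI := S₁.tower_poly; haveI := S₁.fin; haveI := S₁.sep
  haveI : IsScalarTower (RatFunc K) F₀ F₁ := isScalarTower_algRat hx₀ hx₁
  haveI := hasPrincipalDivisors K F₀
  haveI := hasPrincipalDivisors K F₁
  have h := rh_gR_places K F₀ F₁
  rwa [S₀.xF_eq, S₁.xF_eq] at h

/-- The same with the base genus dropped (`g(F₀) ≥ 0`):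
`-2 d + d c(F₀) - c(F₁) ≤ 2 g(F₁) - 2`. -/
theorem rh_of_separating_base {x₀ : F₀} (hx₀ : Transcendental K x₀)
    [FiniteDimensional K⟮x₀⟯ F₀] [Algebra.IsSeparable K⟮x₀⟯ F₀]
    [FiniteDimensional K⟮algebraMap F₀ F₁ x₀⟯ F₁]
    [Algebra.IsSeparable K⟮algebraMap F₀ F₁ x₀⟯ F₁] :
    -2 * (finrank F₀ F₁ : ℤ)
        + (finrank F₀ F₁ : ℤ) * (Set.ncard (Fermat.Agent.S24.placesOverInfty K x₀) : ℤ)
        - (Set.ncard (Fermat.Agent.S24.placesOverInfty K (algebraMap F₀ F₁ x₀)) : ℤ) ≤
      2 * gR K F₁ - 2 := by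
  have h := rh_of_separating (F₁ := F₁) hx₀
  have hg : 0 ≤ gR K F₀ := gR_nonneg_of_separating hx₀
  have hd : (0 : ℤ) ≤ (finrank F₀ F₁ : ℤ) := Int.natCast_nonneg _
  nlinarith

end Places

end Fermat.Agent.S18.RH92
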